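import Fermat.Agent.S16x.Asm.H24_Top
import Fermat.Prelude.Thm_CongruenceSubgroup_one_mem_strictPeriods_Gamma0

/-!
# S16 / ASM (helper24): the assembly of the upper bound, `StUPasm p`

For `p ≥ 5`: if `f ∈ intLattice p 2` is congruent to `∑ σ*(k) q^k` modulo `M` and `M ∤ n`, choose a
prime `l` with `v_l(M) > v_l(n) =: v`; then `G := 24 / (p - 1) • (E - f)` has constant term `1` and
`b * a_k(G) ∈ upModulus p l * ℤ` (`k ≥ 1`) with `b = (p - 1) / l ^ v_l(p - 1)` prime to `l`,
contradicting the non-existence lemma `NoG p l (upModulus p l)`.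

* `h24_key_dvd` : `l ^ v_l(p - 1) * upModulus p l ∣ 24 * l ^ (v_l(n) + 1)`;
* `h24_qCoeff_smul_sub` : `q`-coefficients of `c • (A - f)`;
* `h24_stUPasm : StUPasm p`.
-/

set_option autoImplicit false
set_option linter.style.haveILetI false

open ModularCurve CuspForm

noncomputable section

namespace Fermat.Agent.S16x.Asm

open ModularFormClass CongruenceSubgroup UpperHalfPlane

variable (p : ℕ) [Fact p.Prime]

theorem h24_factorization_twelve_two : (12 : ℕ).factorization 2 = 2 := by
  rw [Nat.factorization_def _ Nat.prime_two]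
  have : (12 : ℕ) = 2 ^ 2 * 3 := by norm_num
  rw [this]
  haveI : Fact (Nat.Prime 2) := ⟨Nat.prime_two⟩
  rw [padicValNat.mul (by norm_num) (by norm_num), padicValNat.prime_pow]
  have : padicValNat 2 3 = 0 := padicValNat.eq_zero_of_not_dvd (by norm_num)
  omega

theorem h24_factorization_twelve_three : (12 : ℕ).factorization 3 = 1 := by
  rw [Nat.factorization_def _ Nat.prime_three]
  have : (12 : ℕ) = 3 ^ 1 * 4 := by norm_num
  rw [this]
  haveI : Fact (Nat.Prime 3) := ⟨Nat.prime_three⟩
  rw [padicValNat.mul (by norm_num) (by norm_num), padicValNat.prime_pow]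
  have : padicValNat 3 4 = 0 := padicValNat.eq_zero_of_not_dvd (by norm_num)
  omega

theorem h24_factorization_eisensteinNumerator (l : ℕ) :
    (eisensteinNumerator p).factorization l =
      (p - 1).factorization l - min ((p - 1).factorization l) ((12 : ℕ).factorization l) := by
  have hp : p.Prime := Fact.out
  have hp1 : p - 1 ≠ 0 := by have := hp.two_le; omega
  unfold eisensteinNumerator
  rw [Nat.factorization_div (Nat.gcd_dvd_left _ _), Nat.factorization_gcd hp1 (by norm_num)]
  rfl

theorem h24_key_dvd (hp5 : 5 ≤ p) (l : ℕ) (hl : l.Prime) :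
    l ^ ((p - 1).factorization l) * upModulus p l ∣
      24 * l ^ ((eisensteinNumerator p).factorization l + 1) := by
  have hp : p.Prime := Fact.out
  have hp1 : p - 1 ≠ 0 := by omega
  rw [h24_factorization_eisensteinNumerator]
  set w := (p - 1).factorization l with hw
  unfold upModulus
  by_cases hl2 : l = 2
  · subst hl2
    rw [if_pos rfl, h24_factorization_twelve_two]
    by_cases h4 : p % 4 = 1
    · rw [if_pos h4]
      have h2w : 2 ≤ w := by
        rw [hw]
        refine (Nat.Prime.pow_dvd_iff_le_factorization Nat.prime_two hp1).mp ?_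
        omega
      obtain ⟨u, hu⟩ : ∃ u, w = u + 2 := ⟨w - 2, by omega⟩
      rw [hu]
      have : min (u + 2) 2 = 2 := by omega
      rw [this, Nat.add_sub_cancel]
      exact ⟨3, by ring⟩
    · rw [if_neg h4]
      have hodd : p % 2 = 1 := by
        rcases hp.eq_two_or_odd with h | h
        · omega
        · exact h
      have h1w : 1 ≤ w := by
        rw [hw]
        refine (Nat.Prime.pow_dvd_iff_le_factorization Nat.prime_two hp1).mp ?_
        omega
      have h2w : ¬ 2 ≤ w := by
        rw [hw]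
        intro h
        have := (Nat.Prime.pow_dvd_iff_le_factorization Nat.prime_two hp1).mpr h
        omega
      have hw1 : w = 1 := by omega
      rw [hw1]
      decide
  · rw [if_neg hl2]
    by_cases hl3 : l = 3
    · subst hl3
      rw [if_pos rfl, h24_factorization_twelve_three]
      by_cases h3 : p % 3 = 1
      · rw [if_pos h3]
        have h1w : 1 ≤ w := by
          rw [hw]
          refine (Nat.Prime.pow_dvd_iff_le_factorization Nat.prime_three hp1).mp ?_
          omega
        obtain ⟨u, hu⟩ : ∃ u, w = u + 1 := ⟨w - 1, by omega⟩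
        rw [hu]
        have : min (u + 1) 1 = 1 := by omega
        rw [this, Nat.add_sub_cancel]
        exact ⟨8, by ring⟩
      · rw [if_neg h3]
        have h0 : p % 3 ≠ 0 := by
          intro h0
          have hdvd : 3 ∣ p := Nat.dvd_of_mod_eq_zero h0
          have := (Nat.prime_dvd_prime_iff_eq Nat.prime_three hp).mp hdvd
          omega
        have h1w : ¬ 1 ≤ w := by
          rw [hw]
          intro h
          have := (Nat.Prime.pow_dvd_iff_le_factorization Nat.prime_three hp1).mpr h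
          omega
        have hw0 : w = 0 := by omega
        rw [hw0]
        decide
    · rw [if_neg hl3]
      have h12 : (12 : ℕ).factorization l = 0 := by
        apply Nat.factorization_eq_zero_of_not_dvd
        intro hdvd
        have h12' : (12 : ℕ) = 2 * 2 * 3 := by norm_num
        rw [h12'] at hdvd
        rcases (Nat.Prime.dvd_mul hl).mp hdvd with h | h
        · rcases (Nat.Prime.dvd_mul hl).mp h with h | h
          · exact hl2 ((Nat.prime_dvd_prime_iff_eq hl Nat.prime_two).mp h)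
          · exact hl2 ((Nat.prime_dvd_prime_iff_eq hl Nat.prime_two).mp h)
        · exact hl3 ((Nat.prime_dvd_prime_iff_eq hl Nat.prime_three).mp h)
      rw [h12, Nat.min_zero, Nat.sub_zero]
      exact ⟨24, by ring⟩

theorem h24_qCoeff_smul_sub {N : ℕ} (c : ℂ) (A : ModularForm (Gamma0 N) 2)
    (f : CuspForm (Gamma0 N) 2) (n : ℕ) :
    qCoeff ⇑(c • (A - CuspForm.toModularFormₗ f)) n = c * (qCoeff ⇑A n - qCoeff ⇑f n) := by
  have hΓ := CongruenceSubgroup.one_mem_strictPeriods_Gamma0 N
  have h1 : ⇑(c • (A - CuspForm.toModularFormₗ f)) = c • ⇑(A - CuspForm.toModularFormₗ f) := by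
    ext z
    simp
  have h2 : ⇑(A - CuspForm.toModularFormₗ f) = ⇑A - ⇑(CuspForm.toModularFormₗ f) := by
    ext z
    simp
  have h3 : (⇑(CuspForm.toModularFormₗ f) : ℍ → ℂ) = ⇑f := by
    ext z
    simp
  simp only [qCoeff]
  rw [h1, ModularForm.qExpansion_smul one_pos hΓ c (A - CuspForm.toModularFormₗ f), h2,
    ModularForm.qExpansion_sub one_pos hΓ A (CuspForm.toModularFormₗ f), h3]
  simp

/-- **[UP] assembly.** -/
theorem h24_stUPasm : StUPasm p := by
  intro hE hp5 hNoG M hM hcong
  obtain ⟨E, hE0, hEk⟩ := hE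
  obtain ⟨f, -, hfk⟩ := hcong
  have hp : p.Prime := Fact.out
  have hp1 : p - 1 ≠ 0 := by omega
  have hn : eisensteinNumerator p ≠ 0 := (eisensteinNumerator_pos p).ne'
  by_contra hnd
  have hex : ∃ l : ℕ, l.Prime ∧
      ¬ M.factorization l ≤ (eisensteinNumerator p).factorization l := by
    by_contra h
    push Not at h
    exact hnd ((Nat.factorization_prime_le_iff_dvd hM.ne' hn).mp h)
  obtain ⟨l, hl, hlt⟩ := hex
  set v := (eisensteinNumerator p).factorization l with hv
  set w := (p - 1).factorization l with hw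
  have hdvdM : l ^ (v + 1) ∣ M :=
    (Nat.Prime.pow_dvd_iff_le_factorization hl hM.ne').mpr (by omega)
  obtain ⟨M₁, hM₁⟩ := hdvdM
  obtain ⟨t, ht⟩ := h24_key_dvd p hp5 l hl
  have hbw : l ^ w * ((p - 1) / l ^ w) = p - 1 := Nat.ordProj_mul_ordCompl_eq_self (p - 1) l
  have hbl : ¬ l ∣ (p - 1) / l ^ w := Nat.not_dvd_ordCompl hl hp1
  set b := (p - 1) / l ^ w with hb
  have hΓ := CongruenceSubgroup.one_mem_strictPeriods_Gamma0 p
  have hf0 : qCoeff ⇑f 0 = 0 := CuspFormClass.qExpansion_coeff_zero f one_pos hΓ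
  have hpC : ((p : ℂ) - 1) = (l : ℂ) ^ w * (b : ℂ) := by
    have h1 : ((p - 1 : ℕ) : ℂ) = (p : ℂ) - 1 := by
      rw [Nat.cast_sub hp.one_le, Nat.cast_one]
    rw [← h1, ← hbw]
    push_cast
    rfl
  have hp0 : ((p : ℂ) - 1) ≠ 0 := by
    have h1 : ((p - 1 : ℕ) : ℂ) = (p : ℂ) - 1 := by
      rw [Nat.cast_sub hp.one_le, Nat.cast_one]
    rw [← h1]
    exact_mod_cast hp1
  have hl0 : ((l : ℂ) ^ w) ≠ 0 := pow_ne_zero _ (by exact_mod_cast hl.ne_zero)
  have hb0 : (b : ℂ) ≠ 0 := by
    intro h
    rw [hpC, h, mul_zero] at hp0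
    exact hp0 rfl
  have hMC : (M : ℂ) = (l : ℂ) ^ (v + 1) * (M₁ : ℂ) := by
    rw [hM₁]
    push_cast
    rfl
  have htC : (24 : ℂ) * (l : ℂ) ^ (v + 1) = (l : ℂ) ^ w * (upModulus p l : ℂ) * (t : ℂ) := by
    exact_mod_cast ht
  refine hNoG l hl (((24 : ℂ) / ((p : ℂ) - 1)) • (E - CuspForm.toModularFormₗ f))
    ⟨?_, b, hbl, fun k hk => ?_⟩
  · rw [h24_qCoeff_smul_sub, hE0, hf0, sub_zero]
    field_simp
  · obtain ⟨c, hc⟩ := hfk k hk
    refine ⟨-((t : ℤ) * (M₁ : ℤ) * c), ?_⟩
    rw [h24_qCoeff_smul_sub, hEk k hk, hc, hpC, hMC]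
    have e1 : (b : ℂ) * (24 / ((l : ℂ) ^ w * (b : ℂ)) *
        ((sigmaStar p k : ℂ) - ((sigmaStar p k : ℂ) + (l : ℂ) ^ (v + 1) * (M₁ : ℂ) * (c : ℂ))))
        = -((24 * (l : ℂ) ^ (v + 1)) * (M₁ : ℂ) * (c : ℂ)) / (l : ℂ) ^ w := by
      field_simp
      ring
    rw [e1, htC]
    push_cast
    field_simp

end Fermat.Agent.S16x.Asm
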