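import Mathlib
import Fermat.Prelude.Def_CuspForm_HeckeLocal
import Fermat.Prelude.Def_CuspForm_HeckeEvalForms
import Fermat.Prelude.Def_HeckeGalois_EichlerShimura
import Fermat.Prelude.Def_ModularCurve_ModularUnit

/-!
# S16 (Eisenstein ideal index), wave 5: the interfaces as exact Lean propositions (helper24, ASM)

Blueprint: findings `WAVE 5 = S16 BLUEPRINT (lead)` (#154).  Frozen statement, for a prime `p`:

  `Nat.card (T ⧸ I) = eisensteinNumerator p = (p - 1) / gcd (p - 1) 12 =: n`,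

`T = heckeLatticeAlgebra p ∅`, `I = Ideal.map ρ (eisensteinIdeal p)`,
`ρ = (latticeRestrictHom p ∅).toRingHom.comp (heckeEvalForms p 2) : ℤ[X_ℓ] → T`.

Top level:

* `StCard p`   [RED]  : the two bounds, in terms of Eisenstein ring homomorphisms, give the card;
* `StHomOfKer p` [RED]: a character of `ℤ[X_ℓ]` killing `ker ρ` descends to `T`;
* `StDual p`   [RED]  : (R3) duality: an Eisenstein homomorphism `T → ℤ/M` gives a cusp form
                        with integral `q`-expansion congruent to `∑ σ*(k) q^k` modulo `M`;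
* `StUP p`     [UP]   : such a congruence forces `M ∣ n`;
* `StLOW p`    [LOW]  : the Eisenstein character modulo `n` kills `ker ρ`.

`result_of` (in `Asm/H24_Top.lean`) : `StCard p → StHomOfKer p → StDual p → StUP p → StLOW p →`
the frozen statement.

The upper bound is reduced (`StUPasm`, with the Eisenstein series `StEis`) to the non-existence
lemmas `NoG p l M'` (`StUP2a`, `StUP2b`, `StUP3a`, `StUP3b`, `StUPL`, `StUPP`); `p = 2, 3` are
`StUPsmall`.
-/

set_option autoImplicit false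

open ModularCurve CuspForm

noncomputable section

namespace Fermat.Agent.S16x.Asm

/-! ### Vocabulary -/

section Vocabulary

variable (p : ℕ) [Fact p.Prime]

/-- The structure map `ρ : ℤ[X_ℓ : ℓ prime] → T`, `X_ℓ ↦ T_ℓ` (`ℓ ≠ p`), `X_p ↦ U_p`
(verbatim the ring homomorphism of the frozen statement). -/
def rho : HeckeAlg →+* ↥(heckeLatticeAlgebra p ∅) :=
  (latticeRestrictHom p ∅).toRingHom.comp (heckeEvalForms p 2)

/-- The image of the Eisenstein ideal in `T` (verbatim the ideal of the frozen statement). -/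
def eisIdeal : Ideal ↥(heckeLatticeAlgebra p ∅) :=
  Ideal.map ((latticeRestrictHom p ∅).toRingHom.comp (heckeEvalForms p 2)) (eisensteinIdeal p)

/-- The Eisenstein character modulo `M`: `X_ℓ ↦ 1 + ℓ` (`ℓ ≠ p`), `X_p ↦ 1`. -/
def eisChar (M : ℕ) : HeckeAlg →+* ZMod M :=
  MvPolynomial.eval₂Hom (Int.castRingHom (ZMod M))
    (fun ℓ : Nat.Primes => ((eisensteinSystem p ℓ : ℤ) : ZMod M))

/-- `σ*(k)`: the sum of the divisors of `k` which are prime to `p`. -/
def sigmaStar (k : ℕ) : ℕ := ∑ d ∈ k.divisors.filter (fun d => ¬ p ∣ d), d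

/-- The Eisenstein character modulo `M` kills the kernel of `ρ`. -/
def EisKer (M : ℕ) : Prop :=
  ∀ P : HeckeAlg, rho p P = 0 → eisChar p M P = 0

/-- There is an Eisenstein ring homomorphism `T → ℤ/M` (`T_ℓ ↦ 1 + ℓ`, `U_p ↦ 1`). -/
def EisHom (M : ℕ) : Prop :=
  ∃ φ : ↥(heckeLatticeAlgebra p ∅) →+* ZMod M, ∀ P : HeckeAlg, φ (rho p P) = eisChar p M P

/-- There is a cusp form of weight 2 and level `Γ₀(p)` with integral `q`-expansion which is
congruent to `∑_{k ≥ 1} σ*(k) q^k` modulo `M`. -/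
def EisCong (M : ℕ) : Prop :=
  ∃ f : CuspForm (CongruenceSubgroup.Gamma0 p) 2, f ∈ intLattice p 2 ∧
    ∀ k : ℕ, 1 ≤ k → ∃ c : ℤ,
      ModularFormClass.qCoeff f k = (sigmaStar p k : ℂ) + (M : ℂ) * (c : ℂ)

/-- `G ∈ M_2(Γ₀(p))` has constant term `1` and is `≡ 1` modulo `M'` with `l`-integral rational
coefficients: there is a common denominator `b` prime to `l` such that `b * a_k(G) ∈ M' ℤ` for
all `k ≥ 1`. -/
def IsOneMod (l M' : ℕ) (G : ModularForm (CongruenceSubgroup.Gamma0 p) 2) : Prop :=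
  ModularFormClass.qCoeff G 0 = 1 ∧
    ∃ b : ℕ, ¬ l ∣ b ∧ ∀ k : ℕ, 1 ≤ k → ∃ c : ℤ,
      (b : ℂ) * ModularFormClass.qCoeff G k = (M' : ℂ) * (c : ℂ)

/-- **Non-existence**: no `G ∈ M_2(Γ₀(p))` is `≡ 1` modulo `M'` (`l`-integrally). -/
def NoG (l M' : ℕ) : Prop :=
  ∀ G : ModularForm (CongruenceSubgroup.Gamma0 p) 2, ¬ IsOneMod p l M' G

/-- The modulus `M'` of the non-existence lemma at the prime `l` (for `p ≥ 5`). -/
def upModulus (l : ℕ) : ℕ :=
  if l = 2 then (if p % 4 = 1 then 4 else 8)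
  else if l = 3 then (if p % 3 = 1 then 3 else 9)
  else l

end Vocabulary

/-! ### Top level -/

section Top

variable (p : ℕ) [Fact p.Prime]

/-- **[RED] (R1)+(R2)+final logic**: `T ⧸ I` is a quotient of `ℤ`; if every Eisenstein
homomorphism `T → ℤ/M` (`M ≥ 1`) has `M ∣ n` and there is one for `M = n`, then
`Nat.card (T ⧸ I) = n`. -/
def StCard : Prop :=
  (∀ M : ℕ, 0 < M → EisHom p M → M ∣ eisensteinNumerator p) →
    EisHom p (eisensteinNumerator p) →
    Nat.card (↥(heckeLatticeAlgebra p ∅) ⧸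
        Ideal.map ((latticeRestrictHom p ∅).toRingHom.comp (heckeEvalForms p 2))
          (eisensteinIdeal p)) =
      eisensteinNumerator p

/-- **[RED]**: `ρ` is surjective, so a character killing `ker ρ` descends to `T`. -/
def StHomOfKer : Prop :=
  ∀ M : ℕ, 0 < M → EisKer p M → EisHom p M

/-- **[RED] (R3) duality**: an Eisenstein homomorphism modulo `M` is the reduction of the
`q`-expansion of a cusp form with integral coefficients. -/
def StDual : Prop :=
  ∀ M : ℕ, 0 < M → EisHom p M → EisCong p M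

/-- **[UP] the upper bound**. -/
def StUP : Prop :=
  ∀ M : ℕ, 0 < M → EisCong p M → M ∣ eisensteinNumerator p

/-- **[LOW] the lower bound**. -/
def StLOW : Prop :=
  EisKer p (eisensteinNumerator p)

/-- **The wiring of the top level** (ASM). -/
def StTop : Prop :=
  StCard p → StHomOfKer p → StDual p → StUP p → StLOW p →
    Nat.card (↥(heckeLatticeAlgebra p ∅) ⧸
        Ideal.map ((latticeRestrictHom p ∅).toRingHom.comp (heckeEvalForms p 2))
          (eisensteinIdeal p)) =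
      eisensteinNumerator p

end Top

/-! ### The upper bound -/

section Upper

variable (p : ℕ) [Fact p.Prime]

/-- **[UP] small primes** (`p = 2, 3`): `S_2(Γ₀(p)) = 0` (S20), so `M ∣ σ*(1) = 1`. -/
def StUPsmall : Prop :=
  p < 5 → StUP p

/-- **[EIS]** the Eisenstein series `E = (p E₂(pz) - E₂(z)) / 24 ∈ M_2(Γ₀(p))` with
`q`-expansion `(p - 1) / 24 + ∑_{k ≥ 1} σ*(k) q^k`. -/
def StEis : Prop :=
  ∃ E : ModularForm (CongruenceSubgroup.Gamma0 p) 2,
    ModularFormClass.qCoeff E 0 = ((p : ℂ) - 1) / 24 ∧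
      ∀ k : ℕ, 1 ≤ k → ModularFormClass.qCoeff E k = (sigmaStar p k : ℂ)

/-- **[UP] assembly**: for `p ≥ 5` the upper bound follows from the non-existence lemmas
(`G := 24 / (p - 1) * (E - f)`, prime by prime: if `l ^ (v + 1) ∣ M`, `v = v_l(n)`, then `G` has
constant term `1` and `b * a_k(G) ∈ upModulus p l * ℤ` with `b = (p - 1) / l ^ v_l(p - 1)`). -/
def StUPasm : Prop :=
  StEis p → 5 ≤ p → (∀ l : ℕ, l.Prime → NoG p l (upModulus p l)) → StUP p

/-- **[UP2a]** `l = 2`, `p ≡ 1 mod 4`: no `G ≡ 1 mod 4`. -/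
def StUP2a : Prop := 5 ≤ p → p % 4 = 1 → NoG p 2 4

/-- **[UP2b]** `l = 2`, `p ≡ 3 mod 4`: no `G ≡ 1 mod 8`. -/
def StUP2b : Prop := 5 ≤ p → p % 4 = 3 → NoG p 2 8

/-- **[UP3a]** `l = 3`, `p ≡ 1 mod 3`: no `G ≡ 1 mod 3`. -/
def StUP3a : Prop := 5 ≤ p → p % 3 = 1 → NoG p 3 3

/-- **[UP3b]** `l = 3`, `p ≡ 2 mod 3`: no `G ≡ 1 mod 9`. -/
def StUP3b : Prop := 5 ≤ p → p % 3 = 2 → NoG p 3 9

/-- **[UPL]** `l ≥ 5`, `l ≠ p`: no `G ≡ 1 mod l`. -/
def StUPL : Prop := 5 ≤ p → ∀ l : ℕ, l.Prime → 5 ≤ l → l ≠ p → NoG p l l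

/-- **[UPP]** `l = p ≥ 5`: no `G ≡ 1 mod p`. -/
def StUPP : Prop := 5 ≤ p → NoG p p p

/-- **[UP] wiring of the six lemmas**. -/
def StNoGAll : Prop :=
  StUP2a p → StUP2b p → StUP3a p → StUP3b p → StUPL p → StUPP p →
    5 ≤ p → ∀ l : ℕ, l.Prime → NoG p l (upModulus p l)

end Upper

end Fermat.Agent.S16x.Asm
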