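import Mathlib

/-!
# S16 shared vocabulary (helper6): `ℓ`-integral algebraic numbers and congruences of power series

* `intL ℓ : Subring ℂ` : the complex numbers `x` such that `b * x` is an algebraic integer for
  some natural number `b` prime to `ℓ` (the localisation of the ring of all algebraic integers
  at the integers prime to `ℓ`).  For a prime `ℓ`, `ℓ⁻¹ ∉ intL ℓ`.
* `psInt ℓ : Subring ℂ⟦X⟧` : power series with coefficients in `intL ℓ`.
* `psMul ℓ M : AddSubgroup ℂ⟦X⟧` : power series with coefficients in `M * intL ℓ`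
  ("`≡ 0 mod M`").
-/

set_option autoImplicit false

open PowerSeries

namespace Fermat.Agent.S16x

/-- The `ℓ`-integral algebraic numbers in `ℂ`. -/
def intL (ℓ : ℕ) : Subring ℂ where
  carrier := {x | ∃ b : ℕ, b.Coprime ℓ ∧ IsIntegral ℤ ((b : ℂ) * x)}
  mul_mem' := by
    rintro x y ⟨b, hb, hx⟩ ⟨c, hc, hy⟩
    refine ⟨b * c, Nat.Coprime.mul_left hb hc, ?_⟩
    have h := hx.mul hy
    have e : ((b * c : ℕ) : ℂ) * (x * y) = (b : ℂ) * x * ((c : ℂ) * y) := by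
      push_cast; ring
    rw [e]; exact h
  one_mem' := ⟨1, Nat.coprime_one_left ℓ, by simpa using isIntegral_one⟩
  add_mem' := by
    rintro x y ⟨b, hb, hx⟩ ⟨c, hc, hy⟩
    refine ⟨b * c, Nat.Coprime.mul_left hb hc, ?_⟩
    have h1 : IsIntegral ℤ ((c : ℂ) * ((b : ℂ) * x)) := by
      have := (isIntegral_algebraMap (R := ℤ) (A := ℂ) (x := (c : ℤ))).mul hx
      simpa using this
    have h2 : IsIntegral ℤ ((b : ℂ) * ((c : ℂ) * y)) := by
      have := (isIntegral_algebraMap (R := ℤ) (A := ℂ) (x := (b : ℤ))).mul hy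
      simpa using this
    have e : ((b * c : ℕ) : ℂ) * (x + y) = (c : ℂ) * ((b : ℂ) * x) + (b : ℂ) * ((c : ℂ) * y) := by
      push_cast; ring
    rw [e]; exact h1.add h2
  zero_mem' := ⟨1, Nat.coprime_one_left ℓ, by simpa using isIntegral_zero⟩
  neg_mem' := by
    rintro x ⟨b, hb, hx⟩
    refine ⟨b, hb, ?_⟩
    rw [mul_neg]; exact hx.neg

theorem mem_intL {ℓ : ℕ} {x : ℂ} :
    x ∈ intL ℓ ↔ ∃ b : ℕ, b.Coprime ℓ ∧ IsIntegral ℤ ((b : ℂ) * x) := Iff.rfl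

theorem intCast_mem_intL (ℓ : ℕ) (n : ℤ) : (n : ℂ) ∈ intL ℓ := intCast_mem _ n

theorem natCast_mem_intL (ℓ : ℕ) (n : ℕ) : (n : ℂ) ∈ intL ℓ := natCast_mem _ n

/-- Algebraic integers are `ℓ`-integral. -/
theorem mem_intL_of_isIntegral (ℓ : ℕ) {x : ℂ} (hx : IsIntegral ℤ x) : x ∈ intL ℓ :=
  ⟨1, Nat.coprime_one_left ℓ, by simpa using hx⟩

/-- Fractions with denominator prime to `ℓ` are `ℓ`-integral. -/
theorem div_mem_intL (ℓ : ℕ) (a : ℤ) {b : ℕ} (hb : b.Coprime ℓ) (hb0 : b ≠ 0) :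
    ((a : ℂ) / (b : ℂ)) ∈ intL ℓ := by
  refine ⟨b, hb, ?_⟩
  have hb' : (b : ℂ) ≠ 0 := Nat.cast_ne_zero.mpr hb0
  have e : (b : ℂ) * ((a : ℂ) / (b : ℂ)) = ((a : ℤ) : ℂ) := by field_simp
  rw [e]
  exact isIntegral_algebraMap (R := ℤ) (A := ℂ) (x := a)

/-- Division by an integer prime to `ℓ` preserves `ℓ`-integrality. -/
theorem div_natCast_mem_intL (ℓ : ℕ) {x : ℂ} (hx : x ∈ intL ℓ) {c : ℕ} (hc : c.Coprime ℓ)
    (hc0 : c ≠ 0) : x / (c : ℂ) ∈ intL ℓ := by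
  obtain ⟨b, hb, hbx⟩ := hx
  refine ⟨b * c, Nat.Coprime.mul_left hb hc, ?_⟩
  have hc' : (c : ℂ) ≠ 0 := Nat.cast_ne_zero.mpr hc0
  have e : ((b * c : ℕ) : ℂ) * (x / (c : ℂ)) = (b : ℂ) * x := by
    push_cast; field_simp
  rw [e]; exact hbx

/-- A rational number which is an algebraic integer is an integer. -/
theorem exists_int_of_isIntegral_ratCast {q : ℚ} (h : IsIntegral ℤ ((q : ℂ))) :
    ∃ n : ℤ, (n : ℚ) = q := by
  have h1 : IsIntegral ℤ q := by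
    have : IsIntegral ℤ (algebraMap ℚ ℂ q) := by simpa using h
    exact (isIntegral_algebraMap_iff (algebraMap ℚ ℂ).injective).mp this
  obtain ⟨n, hn⟩ := IsIntegrallyClosed.isIntegral_iff.mp h1
  exact ⟨n, by simpa using hn⟩

/-- For a prime `ℓ`, the number `ℓ⁻¹` is not `ℓ`-integral. -/
theorem not_mem_intL_of_mul_eq_one {ℓ : ℕ} (hℓ : ℓ.Prime) {r : ℂ} (h : (ℓ : ℂ) * r = 1) :
    r ∉ intL ℓ := by
  rintro ⟨b, hb, hbr⟩
  have hℓ0 : (ℓ : ℂ) ≠ 0 := Nat.cast_ne_zero.mpr hℓ.ne_zero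
  have e : (b : ℂ) * r = (((b : ℚ) / (ℓ : ℚ) : ℚ) : ℂ) := by
    have : r = 1 / (ℓ : ℂ) := by field_simp; linear_combination h
    rw [this]; push_cast; ring
  rw [e] at hbr
  obtain ⟨n, hn⟩ := exists_int_of_isIntegral_ratCast hbr
  have hℓq : (ℓ : ℚ) ≠ 0 := Nat.cast_ne_zero.mpr hℓ.ne_zero
  have h2 : (b : ℚ) = (ℓ : ℚ) * n := by
    rw [hn]; field_simp
  have h3 : (b : ℤ) = (ℓ : ℤ) * n := by exact_mod_cast h2
  have h4 : (ℓ : ℤ) ∣ (b : ℤ) := ⟨n, h3⟩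
  have h5 : ℓ ∣ b := Int.natCast_dvd_natCast.mp h4
  have h6 : ℓ ∣ Nat.gcd b ℓ := Nat.dvd_gcd h5 dvd_rfl
  rw [hb] at h6
  exact hℓ.one_lt.ne' (Nat.dvd_one.mp h6)

/-- For a prime `ℓ`: `1 ≠ ℓ * r` for `r` an `ℓ`-integral number. -/
theorem one_ne_mul_of_mem {ℓ : ℕ} (hℓ : ℓ.Prime) {r : ℂ} (hr : r ∈ intL ℓ) :
    (1 : ℂ) ≠ (ℓ : ℂ) * r := fun h => not_mem_intL_of_mul_eq_one hℓ h.symm hr

/-! ### Power series -/

/-- Power series with `ℓ`-integral coefficients. -/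
def psInt (ℓ : ℕ) : Subring (PowerSeries ℂ) where
  carrier := {F | ∀ n, coeff n F ∈ intL ℓ}
  mul_mem' := by
    intro F G hF hG n
    rw [coeff_mul]
    exact Subring.sum_mem _ fun ij _ => Subring.mul_mem _ (hF _) (hG _)
  one_mem' := by
    intro n
    rw [coeff_one]
    split_ifs
    · exact Subring.one_mem _
    · exact Subring.zero_mem _
  add_mem' := by
    intro F G hF hG n
    rw [map_add]; exact Subring.add_mem _ (hF n) (hG n)
  zero_mem' := by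
    intro n
    rw [map_zero]; exact Subring.zero_mem _
  neg_mem' := by
    intro F hF n
    rw [map_neg]; exact Subring.neg_mem _ (hF n)

theorem mem_psInt {ℓ : ℕ} {F : PowerSeries ℂ} : F ∈ psInt ℓ ↔ ∀ n, coeff n F ∈ intL ℓ := Iff.rfl

theorem C_mem_psInt {ℓ : ℕ} {c : ℂ} (hc : c ∈ intL ℓ) : C c ∈ psInt ℓ := by
  intro n
  rw [coeff_C]
  split_ifs
  · exact hc
  · exact Subring.zero_mem _

theorem X_mem_psInt (ℓ : ℕ) : (X : PowerSeries ℂ) ∈ psInt ℓ := by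
  intro n
  rw [coeff_X]
  split_ifs
  · exact Subring.one_mem _
  · exact Subring.zero_mem _

/-- Power series whose coefficients are integers are `ℓ`-integral. -/
theorem mem_psInt_of_int {ℓ : ℕ} {F : PowerSeries ℂ} (h : ∀ n, ∃ a : ℤ, coeff n F = a) :
    F ∈ psInt ℓ := fun n => by
  obtain ⟨a, ha⟩ := h n
  rw [ha]; exact intCast_mem_intL ℓ a

/-- Power series with coefficients in `M * intL ℓ`. -/
def psMul (ℓ : ℕ) (M : ℂ) : AddSubgroup (PowerSeries ℂ) where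
  carrier := {F | ∀ n, ∃ r ∈ intL ℓ, coeff n F = M * r}
  add_mem' := by
    intro F G hF hG n
    obtain ⟨r, hr, e⟩ := hF n
    obtain ⟨s, hs, e'⟩ := hG n
    exact ⟨r + s, Subring.add_mem _ hr hs, by rw [map_add, e, e']; ring⟩
  zero_mem' := fun n => ⟨0, Subring.zero_mem _, by simp⟩
  neg_mem' := by
    intro F hF n
    obtain ⟨r, hr, e⟩ := hF n
    exact ⟨-r, Subring.neg_mem _ hr, by rw [map_neg, e]; ring⟩

theorem mem_psMul {ℓ : ℕ} {M : ℂ} {F : PowerSeries ℂ} :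
    F ∈ psMul ℓ M ↔ ∀ n, ∃ r ∈ intL ℓ, coeff n F = M * r := Iff.rfl

/-- `M * W ∈ psMul ℓ M` for `W ∈ psInt ℓ`. -/
theorem C_mul_mem_psMul {ℓ : ℕ} (M : ℂ) {W : PowerSeries ℂ} (hW : W ∈ psInt ℓ) :
    C M * W ∈ psMul ℓ M := fun n => ⟨coeff n W, hW n, by rw [coeff_C_mul]⟩

/-- Elements of `psMul ℓ M` are of the form `M * W`, `W ∈ psInt ℓ`. -/
theorem exists_eq_C_mul {ℓ : ℕ} {M : ℂ} {F : PowerSeries ℂ} (hF : F ∈ psMul ℓ M) :
    ∃ W ∈ psInt ℓ, F = C M * W := by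
  choose r hr e using hF
  refine ⟨PowerSeries.mk r, fun n => by rw [coeff_mk]; exact hr n, ?_⟩
  ext n
  rw [coeff_C_mul, coeff_mk, e]

/-- `psMul` is stable under multiplication by `psInt`. -/
theorem mul_mem_psMul {ℓ : ℕ} {M : ℂ} {F G : PowerSeries ℂ} (hF : F ∈ psInt ℓ)
    (hG : G ∈ psMul ℓ M) : F * G ∈ psMul ℓ M := by
  obtain ⟨W, hW, rfl⟩ := exists_eq_C_mul hG
  have : F * (C M * W) = C M * (F * W) := by ring
  rw [this]
  exact C_mul_mem_psMul M (Subring.mul_mem _ hF hW)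

theorem mul_mem_psMul' {ℓ : ℕ} {M : ℂ} {F G : PowerSeries ℂ} (hF : F ∈ psMul ℓ M)
    (hG : G ∈ psInt ℓ) : F * G ∈ psMul ℓ M := by
  rw [mul_comm]; exact mul_mem_psMul hG hF

/-- **Division by a series `X + ⋯`**: if `D` has `ℓ`-integral coefficients, constant term `0`
and linear coefficient `1`, and `D * Y ≡ 0 mod M`, then `Y ≡ 0 mod M`. -/
theorem mem_psMul_of_mul_mem {ℓ : ℕ} {M : ℂ} {D Y : PowerSeries ℂ} (hD : D ∈ psInt ℓ)
    (hD0 : coeff 0 D = 0) (hD1 : coeff 1 D = 1) (h : D * Y ∈ psMul ℓ M) : Y ∈ psMul ℓ M := by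
  intro n
  induction n using Nat.strong_induction_on with
  | _ n ih =>
    obtain ⟨r, hr, e⟩ := h (n + 1)
    rw [coeff_mul, Finset.Nat.sum_antidiagonal_eq_sum_range_succ_mk] at e
    -- split off `i = 0` and `i = 1`
    rw [Finset.sum_range_succ', Finset.sum_range_succ'] at e
    simp only [Nat.sub_zero, hD0, zero_mul, add_zero, zero_add, hD1, one_mul,
      Nat.add_sub_cancel] at e
    -- the remaining sum is in `M * intL`
    have hsum : ∃ s ∈ intL ℓ, ∑ i ∈ Finset.range n, coeff (i + 1 + 1) D *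
        coeff (n + 1 - (i + 1 + 1)) Y = M * s := by
      have : ∀ i ∈ Finset.range n, ∃ s ∈ intL ℓ, coeff (i + 1 + 1) D *
          coeff (n + 1 - (i + 1 + 1)) Y = M * s := by
        intro i hi
        have hlt : n + 1 - (i + 1 + 1) < n := by
          have := Finset.mem_range.mp hi; omega
        obtain ⟨t, ht, et⟩ := ih _ hlt
        exact ⟨coeff (i + 1 + 1) D * t, Subring.mul_mem _ (hD _) ht, by rw [et]; ring⟩
      choose! s hs es using this
      refine ⟨∑ i ∈ Finset.range n, s i, Subring.sum_mem _ hs, ?_⟩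
      rw [Finset.mul_sum]
      exact Finset.sum_congr rfl es
    obtain ⟨s, hs, es⟩ := hsum
    refine ⟨r - s, Subring.sub_mem _ hr hs, ?_⟩
    rw [es] at e
    linear_combination e

end Fermat.Agent.S16x
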