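import Fermat.Agent.S16x.Asm.H24_Top
import Fermat.Agent.S16x.Asm.H24_UPasm
import Fermat.Agent.S16x.Red.H19_Card
import Fermat.Agent.S16x.Red.H19_Dual
import Fermat.Agent.S16x.Low.H26_Final
import Fermat.Agent.S16x.Eis.H21_Eis
import Fermat.Agent.S16x.Eis.H21_Small
import Fermat.Agent.S16x.Tr.H23_TT
import Fermat.Agent.S16x.Up2.H6_Final
import Fermat.Agent.S16x.Up3.H27_UP3b
import Fermat.Agent.S16x.Upl.H17_Asm
import Fermat.Agent.S16x.Upl.H17_Swd
import Fermat.Agent.S16x.Conj.H28_Esymm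
import Fermat.Agent.S16x.Conj.H2_Push
import Fermat.Agent.S16x.Conj.H3_Final
import Fermat.Agent.S16x.L1.H13_Final

/-!
# S16: the complete wiring modulo the single leaf `Conj.StTwo p` (helper6, deputy)

Every input of `Asm.result_of` is on main except that the six non-existence leaves still depend
on `Conj.StTwo p` (the `t`-expansion of `G ∣ S T^j` for `G` of weight `2` on `Γ₀(p)`).
-/

set_option autoImplicit false

open ModularCurve CuspForm

namespace Fermat.Agent.S16x.Asm.H6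

/-- **S16 from `Conj.StTwo p`.** -/
theorem h6_result_of_two (p : ℕ) [Fact p.Prime] (hTwo : Conj.StTwo p) :
    Nat.card (↥(heckeLatticeAlgebra p ∅) ⧸
        Ideal.map ((latticeRestrictHom p ∅).toRingHom.comp (heckeEvalForms p 2))
          (eisensteinIdeal p)) =
      eisensteinNumerator p :=
  Asm.result_of p (Red.h19_stCard p) (Red.h19_stHomOfKer p) (Red.h19_stDual p)
    (Low.H26.stLOW p) (Eis.h21_stUPsmall p) (Asm.h24_stUPasm p) (Eis.h21_stEis p)
    (Tr.H23.h23_stUP2a p (Conj.H3.stMainCoeff p) (Conj.H3.stInfty p) hTwo (Conj.H3.stAlg p)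
      (Conj.H3.stRing p) (Conj.H3.stNice p) (Conj.H2.stPush p))
    (Up2.h6_stUP2b_of_two p hTwo)
    (Tr.H23.h23_stUP3a p (Conj.H3.stMainCoeff p) (Conj.H3.stInfty p) hTwo (Conj.H3.stAlg p)
      (Conj.H3.stRing p) (Conj.H3.stNice p) (Conj.H2.stPush p))
    (Up3.H27.stUP3b_of (Conj.H3.stMainCoeff p) (Conj.H3.stInfty p) hTwo (Conj.H3.stAlg p)
      (Conj.H3.stNice p) (Conj.H3.stRing p) L1.H15.h15_stINT L1.H13.stORD)
    (Upl.h17_stUPLasm p
      (Conj.H28.h28_stEsymm_of p (Conj.H3.stMainCoeff p) (Conj.H3.stInfty p) hTwo) Upl.h17_stSwd)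
    (Upl.h17_stUPPasm p
      (Conj.H28.h28_stEsymm_of p (Conj.H3.stMainCoeff p) (Conj.H3.stInfty p) hTwo) Upl.h17_stSwd)

end Fermat.Agent.S16x.Asm.H6
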