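import Fermat.Agent.S16x.Asm.Defs
import Fermat.Prelude.Thm_CongruenceSubgroup_one_mem_strictPeriods_Gamma0

/-!
# S16 / ASM: `StUPasm` - the upper bound from the non-existence lemmas

If `f` is a cusp form with `a_k(f) ≡ σ*(k) mod M` and `M ∤ n`, pick a prime power `l ^ k ∣ M`
with `l ^ k ∤ n`; then `G := 24 / (p - 1) • (E - f)` has constant term `1` and
`b * a_j(G) ∈ upModulus p l * ℤ` for `b := (p - 1) / l ^ v_l(p - 1)`, contradicting `NoG`.
-/

set_option autoImplicit false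

open ModularCurve CuspForm ModularFormClass CongruenceSubgroup UpperHalfPlane

noncomputable section

namespace Fermat.Agent.S16x.Asm.H16

/-- `12 * n = (12 / g) * (p - 1)`. -/
theorem twelve_mul_eisNum (p : ℕ) :
    12 * eisensteinNumerator p = (12 / Nat.gcd (p - 1) 12) * (p - 1) := by
  unfold eisensteinNumerator
  set g := Nat.gcd (p - 1) 12 with hg
  have h1 : g ∣ p - 1 := Nat.gcd_dvd_left _ _
  have h2 : g ∣ 12 := Nat.gcd_dvd_right _ _
  obtain ⟨a, ha⟩ := h1
  obtain ⟨b, hb⟩ := h2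
  rcases Nat.eq_zero_or_pos g with h0 | h0
  · rw [h0] at hb; omega
  rw [ha, Nat.mul_div_cancel_left _ h0]
  conv_lhs => rw [hb]
  conv_rhs => rw [show (12 : ℕ) / g = b by rw [hb, Nat.mul_div_cancel_left _ h0]]
  ring

/-- the `l`-part of `p - 1` divides `12 * n`. -/
theorem pow_dvd_twelve_mul (p l : ℕ) :
    l ^ (p - 1).factorization l ∣ 12 * eisensteinNumerator p := by
  rw [twelve_mul_eisNum]
  exact Dvd.dvd.mul_left (Nat.ordProj_dvd _ _) _

/-- **Arithmetic core** of the assembly. -/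
theorem upModulus_mul_dvd (p : ℕ) (hp : p.Prime) (hp5 : 5 ≤ p) (l : ℕ) (hl : l.Prime) (k : ℕ)
    (hk : ¬ l ^ k ∣ eisensteinNumerator p) :
    upModulus p l * l ^ (p - 1).factorization l ∣ 24 * l ^ k := by
  set a := (p - 1).factorization l with ha
  set n := eisensteinNumerator p with hn
  have h12 : l ^ a ∣ 12 * n := pow_dvd_twelve_mul p l
  have hla : l ^ a ∣ p - 1 := Nat.ordProj_dvd _ _
  have hk1 : 1 ≤ k := by
    rcases Nat.eq_zero_or_pos k with h0 | h0
    · exact absurd (by rw [h0, pow_zero]; exact one_dvd _) hk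
    · exact h0
  by_cases h2 : l = 2
  · subst h2
    -- `2 ^ (a - 2) ∣ n`
    have hA : a ≤ k + 1 := by
      by_contra hcon
      push Not at hcon
      apply hk
      have h3 : (2 : ℕ) ^ (k + 2) ∣ 12 * n := (pow_dvd_pow 2 (by omega)).trans h12
      have h4 : (2 : ℕ) ^ k ∣ 3 * n := by
        have : (2 : ℕ) ^ 2 * 2 ^ k ∣ 2 ^ 2 * (3 * n) := by
          rw [← pow_add, show 2 + k = k + 2 by ring]
          calc (2 : ℕ) ^ (k + 2) ∣ 12 * n := h3
            _ = 2 ^ 2 * (3 * n) := by ring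
        exact Nat.dvd_of_mul_dvd_mul_left (by norm_num) this
      exact (Nat.Coprime.pow_left k (by norm_num : Nat.Coprime 2 3)).dvd_of_dvd_mul_left h4
    unfold upModulus
    rw [if_pos rfl]
    by_cases h4 : p % 4 = 1
    · rw [if_pos h4]
      calc 4 * 2 ^ a = 2 ^ (a + 2) := by ring
        _ ∣ 2 ^ (k + 3) := pow_dvd_pow 2 (by omega)
        _ ∣ 24 * 2 ^ k := ⟨3, by ring⟩
    · rw [if_neg h4]
      have ha1 : a ≤ 1 := by
        by_contra hcon
        push Not at hcon
        have h5 : (2 : ℕ) ^ 2 ∣ p - 1 := (pow_dvd_pow 2 hcon).trans hla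
        have hodd : p % 2 = 1 := by
          rcases hp.eq_two_or_odd with h | h
          · omega
          · exact h
        omega
      calc 8 * 2 ^ a = 2 ^ (a + 3) := by ring
        _ ∣ 2 ^ (k + 3) := pow_dvd_pow 2 (by omega)
        _ ∣ 24 * 2 ^ k := ⟨3, by ring⟩
  by_cases h3 : l = 3
  · subst h3
    have hA : a ≤ k := by
      by_contra hcon
      push Not at hcon
      apply hk
      have h3 : (3 : ℕ) ^ (k + 1) ∣ 12 * n := (pow_dvd_pow 3 (by omega)).trans h12
      have h4 : (3 : ℕ) ^ k ∣ 4 * n := by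
        have : (3 : ℕ) * 3 ^ k ∣ 3 * (4 * n) := by
          rw [← pow_succ']
          calc (3 : ℕ) ^ (k + 1) ∣ 12 * n := h3
            _ = 3 * (4 * n) := by ring
        exact Nat.dvd_of_mul_dvd_mul_left (by norm_num) this
      exact (Nat.Coprime.pow_left k (by norm_num : Nat.Coprime 3 4)).dvd_of_dvd_mul_left h4
    unfold upModulus
    rw [if_neg (by norm_num), if_pos rfl]
    by_cases h4 : p % 3 = 1
    · rw [if_pos h4]
      calc 3 * 3 ^ a = 3 ^ (a + 1) := by ring
        _ ∣ 3 ^ (k + 1) := pow_dvd_pow 3 (by omega)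
        _ ∣ 24 * 3 ^ k := ⟨8, by ring⟩
    · rw [if_neg h4]
      have ha0 : a = 0 := by
        by_contra hcon
        have h5 : (3 : ℕ) ^ 1 ∣ p - 1 := (pow_dvd_pow 3 (by omega)).trans hla
        have hp3 : p % 3 ≠ 0 := by
          intro h0
          have : 3 ∣ p := Nat.dvd_of_mod_eq_zero h0
          have := (Nat.prime_dvd_prime_iff_eq Nat.prime_three hp).mp this
          omega
        omega
      rw [ha0, pow_zero, mul_one]
      calc 9 = 3 ^ 2 := by norm_num
        _ ∣ 3 ^ (k + 1) := pow_dvd_pow 3 (by omega)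
        _ ∣ 24 * 3 ^ k := ⟨8, by ring⟩
  · -- `l ≥ 5`
    have hcop : Nat.Coprime l 12 := by
      rw [Nat.Prime.coprime_iff_not_dvd hl]
      intro hd
      have h12' : (12 : ℕ) = 2 * 2 * 3 := by norm_num
      rw [h12'] at hd
      rcases (Nat.Prime.dvd_mul hl).mp hd with hd | hd
      · rcases (Nat.Prime.dvd_mul hl).mp hd with hd | hd
        · exact h2 ((Nat.prime_dvd_prime_iff_eq hl Nat.prime_two).mp hd)
        · exact h2 ((Nat.prime_dvd_prime_iff_eq hl Nat.prime_two).mp hd)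
      · exact h3 ((Nat.prime_dvd_prime_iff_eq hl Nat.prime_three).mp hd)
    have hA : a + 1 ≤ k := by
      by_contra hcon
      push Not at hcon
      apply hk
      have h3 : l ^ k ∣ 12 * n := (pow_dvd_pow l (by omega)).trans h12
      exact (Nat.Coprime.pow_left k hcop).dvd_of_dvd_mul_left h3
    unfold upModulus
    rw [if_neg h2, if_neg h3]
    calc l * l ^ a = l ^ (a + 1) := by ring
      _ ∣ l ^ k := pow_dvd_pow l hA
      _ ∣ 24 * l ^ k := Dvd.intro_left _ rfl

variable (p : ℕ) [Fact p.Prime]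

omit [Fact p.Prime] in
/-- `1` is a strict period of `Γ₀(p)`. -/
theorem one_mem : (1 : ℝ) ∈
    (Subgroup.map (Matrix.SpecialLinearGroup.mapGL ℝ) (Gamma0 p)).strictPeriods :=
  CongruenceSubgroup.one_mem_strictPeriods_Gamma0 p

/-- **[UP] assembly** (verbatim `Asm.StUPasm`). -/
theorem stUPasm : StUPasm p := by
  intro hEis hp5 hNoG M hM hCong
  have hp : p.Prime := Fact.out
  rw [Nat.dvd_iff_prime_pow_dvd_dvd]
  intro l k hl hkM
  by_contra hkn
  have harith := upModulus_mul_dvd p hp hp5 l hl k hkn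
  obtain ⟨E, hE0, hEk⟩ := hEis
  obtain ⟨f, -, hfk⟩ := hCong
  have hp1 : (p : ℂ) - 1 ≠ 0 := by
    have h1 : (p : ℂ) ≠ 1 := by exact_mod_cast (by omega : p ≠ 1)
    exact sub_ne_zero.mpr h1
  -- the form `G`
  set H : ModularForm (Subgroup.map (Matrix.SpecialLinearGroup.mapGL ℝ) (Gamma0 p)) 2 :=
    E - CuspForm.toModularFormₗ f with hH
  set G : ModularForm (Subgroup.map (Matrix.SpecialLinearGroup.mapGL ℝ) (Gamma0 p)) 2 :=
    ((24 : ℂ) / ((p : ℂ) - 1)) • H with hG
  have hqG : ∀ j : ℕ, qCoeff G j =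
      (24 : ℂ) / ((p : ℂ) - 1) * (qCoeff E j - qCoeff f j) := by
    intro j
    unfold qCoeff
    have h1 : (⇑G : ℍ → ℂ) = ((24 : ℂ) / ((p : ℂ) - 1)) • (⇑H : ℍ → ℂ) := rfl
    have h2 : (⇑H : ℍ → ℂ) = (⇑E : ℍ → ℂ) - (⇑f : ℍ → ℂ) := rfl
    rw [h1, ModularForm.qExpansion_smul one_pos (one_mem p) _ H, h2,
      ModularForm.qExpansion_sub one_pos (one_mem p) E f]
    simp
  have hf0 : qCoeff f 0 = 0 := CuspFormClass.qExpansion_coeff_zero f one_pos (one_mem p)
  apply hNoG l hl G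
  refine ⟨?_, (p - 1) / l ^ (p - 1).factorization l,
    Nat.not_dvd_ordCompl hl (by omega), ?_⟩
  · rw [hqG, hE0, hf0, sub_zero]
    field_simp
  · intro j hj
    obtain ⟨c, hc⟩ := hfk j hj
    obtain ⟨t, ht⟩ := harith
    obtain ⟨s, hs⟩ := hkM
    -- `24 * M = upModulus * l ^ a * (t * s)`
    have hb : l ^ (p - 1).factorization l * ((p - 1) / l ^ (p - 1).factorization l) = p - 1 :=
      Nat.ordProj_mul_ordCompl_eq_self _ _
    set a := (p - 1).factorization l with ha
    set b := (p - 1) / l ^ a with hb'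
    refine ⟨-(t * s * c : ℤ), ?_⟩
    rw [hqG, hEk j hj, hc]
    have hbC : ((l : ℂ) ^ a) * (b : ℂ) = (p : ℂ) - 1 := by
      have := congrArg (Nat.cast : ℕ → ℂ) hb
      push_cast at this
      rw [this, Nat.cast_sub (by omega : 1 ≤ p)]
      simp
    have h24 : (24 : ℂ) * (M : ℂ) = (upModulus p l : ℂ) * (l : ℂ) ^ a * ((t : ℂ) * (s : ℂ)) := by
      have h1 : (24 * M : ℕ) = upModulus p l * l ^ a * (t * s) := by
        rw [hs]
        calc 24 * (l ^ k * s) = (24 * l ^ k) * s := by ring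
          _ = (upModulus p l * l ^ a * t) * s := by rw [ht]
          _ = upModulus p l * l ^ a * (t * s) := by ring
      have := congrArg (Nat.cast : ℕ → ℂ) h1
      push_cast at this
      exact this
    have hla0 : ((l : ℂ) ^ a) ≠ 0 := by
      apply pow_ne_zero
      exact_mod_cast hl.ne_zero
    have hb0 : (b : ℂ) ≠ 0 := by
      intro h0
      rw [h0, mul_zero] at hbC
      exact hp1 hbC.symm
    have hstep : (b : ℂ) * ((24 : ℂ) / ((l : ℂ) ^ a * (b : ℂ)) *
        ((sigmaStar p j : ℂ) - ((sigmaStar p j : ℂ) + (M : ℂ) * (c : ℂ)))) =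
        -((24 : ℂ) * (M : ℂ)) * (c : ℂ) / (l : ℂ) ^ a := by
      field_simp
      ring
    rw [← hbC, hstep, h24]
    push_cast
    field_simp

end Fermat.Agent.S16x.Asm.H16
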