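import Fermat.Agent.S16x.Asm.Defs

/-!
# S16 / ASM (helper24): the wiring of the top level

* `eisensteinNumerator_pos`
* `stTop : StTop p` — `StCard`, `StHomOfKer`, `StDual`, `StUP`, `StLOW` give the frozen statement;
* `stNoGAll : StNoGAll p` — the six non-existence lemmas give `NoG p l (upModulus p l)` for all
  primes `l` (`p ≥ 5`);
* `stUP_of : StUPsmall p → StUPasm p → StEis p → (six lemmas) → StUP p`;
* `result_of` : everything together.
-/

set_option autoImplicit false

open ModularCurve CuspForm

noncomputable section

namespace Fermat.Agent.S16x.Asm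

variable (p : ℕ) [Fact p.Prime]

/-- `n = (p - 1) / gcd (p - 1) 12` is positive. -/
theorem eisensteinNumerator_pos : 0 < eisensteinNumerator p := by
  have hp : p.Prime := Fact.out
  have h1 : 0 < p - 1 := by have := hp.two_le; omega
  unfold eisensteinNumerator
  exact Nat.div_pos (Nat.le_of_dvd h1 (Nat.gcd_dvd_left _ _)) (Nat.gcd_pos_of_pos_left _ h1)

/-- **The wiring of the top level.** -/
theorem stTop : StTop p := by
  intro hCard hHom hDual hUP hLOW
  refine hCard (fun M hM h => hUP M hM (hDual M hM h)) ?_
  exact hHom _ (eisensteinNumerator_pos p) hLOW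

/-- **The six non-existence lemmas cover all primes `l`.** -/
theorem stNoGAll : StNoGAll p := by
  intro h2a h2b h3a h3b hL hP hp5 l hl
  have hp : p.Prime := Fact.out
  unfold upModulus
  by_cases hl2 : l = 2
  · subst hl2
    rw [if_pos rfl]
    by_cases h4 : p % 4 = 1
    · rw [if_pos h4]
      exact h2a hp5 h4
    · rw [if_neg h4]
      refine h2b hp5 ?_
      have hodd : p % 2 = 1 := by
        rcases hp.eq_two_or_odd with h | h
        · omega
        · exact h
      omega
  · rw [if_neg hl2]
    by_cases hl3 : l = 3
    · subst hl3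
      rw [if_pos rfl]
      by_cases h3 : p % 3 = 1
      · rw [if_pos h3]
        exact h3a hp5 h3
      · rw [if_neg h3]
        refine h3b hp5 ?_
        have h0 : p % 3 ≠ 0 := by
          intro h0
          have hdvd : 3 ∣ p := Nat.dvd_of_mod_eq_zero h0
          have := (Nat.prime_dvd_prime_iff_eq Nat.prime_three hp).mp hdvd
          omega
        omega
    · rw [if_neg hl3]
      have hl5 : 5 ≤ l := by
        have h2 := hl.two_le
        by_contra hlt
        have h4 : l = 4 := by omega
        subst h4
        exact absurd hl (by decide)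
      by_cases hlp : l = p
      · subst hlp
        exact hP hp5
      · exact hL hp5 l hl hl5 hlp

/-- The upper bound from its pieces. -/
theorem stUP_of (hsmall : StUPsmall p) (hasm : StUPasm p) (hE : StEis p)
    (h2a : StUP2a p) (h2b : StUP2b p) (h3a : StUP3a p) (h3b : StUP3b p)
    (hL : StUPL p) (hP : StUPP p) : StUP p := by
  by_cases hp5 : 5 ≤ p
  · exact hasm hE hp5 (stNoGAll p h2a h2b h3a h3b hL hP hp5)
  · exact hsmall (by omega)

/-- **S16 from the package deliverables.** -/
theorem result_of (hCard : StCard p) (hHom : StHomOfKer p) (hDual : StDual p)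
    (hLOW : StLOW p) (hsmall : StUPsmall p) (hasm : StUPasm p) (hE : StEis p)
    (h2a : StUP2a p) (h2b : StUP2b p) (h3a : StUP3a p) (h3b : StUP3b p)
    (hL : StUPL p) (hP : StUPP p) :
    Nat.card (↥(heckeLatticeAlgebra p ∅) ⧸
        Ideal.map ((latticeRestrictHom p ∅).toRingHom.comp (heckeEvalForms p 2))
          (eisensteinIdeal p)) =
      eisensteinNumerator p :=
  stTop p hCard hHom hDual (stUP_of p hsmall hasm hE h2a h2b h3a h3b hL hP) hLOW

end Fermat.Agent.S16x.Asm
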