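import Mathlib

/-!
# S16 / [UP] assembly : the arithmetic core

For a prime `p ≥ 5`, `n = (p - 1) / gcd (p - 1) 12` and `M ≥ 1` with `¬ M ∣ n` there is a prime
`l` and a natural number `b` prime to `l` such that `b * (24 * M) = (p - 1) * (M' * e)` where
`M'` is the modulus of the non-existence lemma at `l`:
`4 / 8` (`l = 2`, `p ≡ 1 / 3 mod 4`), `3 / 9` (`l = 3`, `p ≡ 1 / 2 mod 3`), `l` (`l ≥ 5`).
-/

set_option autoImplicit false

namespace Fermat.Agent.S16x.Asm.H7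

/-- The modulus of the non-existence lemma at `l` (same as `Asm.upModulus`, no instance). -/
def upMod (p l : ℕ) : ℕ :=
  if l = 2 then (if p % 4 = 1 then 4 else 8)
  else if l = 3 then (if p % 3 = 1 then 3 else 9)
  else l

/-- If `¬ M ∣ n` (`M ≠ 0`), some prime power `l ^ (v + 1)` divides `M` while `l ^ v` exactly
divides `n`. -/
theorem h7_exists_prime_pow (M n : ℕ) (hnd : ¬ M ∣ n) :
    ∃ l v : ℕ, l.Prime ∧ l ^ (v + 1) ∣ M ∧ l ^ v ∣ n ∧ ¬ l ^ (v + 1) ∣ n := by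
  have h := (Nat.dvd_iff_prime_pow_dvd_dvd n M).not.mp hnd
  push Not at h
  obtain ⟨l, k, hl, hkM, hkn⟩ := h
  -- the least `k` with `l ^ k ∣ M`, `¬ l ^ k ∣ n`
  classical
  have hex : ∃ k, l ^ k ∣ M ∧ ¬ l ^ k ∣ n := ⟨k, hkM, hkn⟩
  set k₀ := Nat.find hex with hk₀
  obtain ⟨h1, h2⟩ := Nat.find_spec hex
  have hk₀pos : k₀ ≠ 0 := by
    intro h0
    rw [← hk₀, h0, pow_zero] at h2
    exact h2 (one_dvd _)
  obtain ⟨v, hv⟩ := Nat.exists_eq_succ_of_ne_zero hk₀pos
  refine ⟨l, v, hl, ?_, ?_, ?_⟩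
  · rw [← Nat.succ_eq_add_one, ← hv]; exact h1
  · by_contra hcon
    have hlt : v < k₀ := by omega
    have hM' : l ^ v ∣ M := dvd_trans (pow_dvd_pow l (by omega)) h1
    exact Nat.find_min hex hlt ⟨hM', hcon⟩
  · rw [← Nat.succ_eq_add_one, ← hv]; exact h2

/-- The local shape of `gcd (p - 1) 12` at a prime `l`: `g = l ^ w * g'`, `l ∤ g'`, and
`l ^ w * upMod p l * e₀ = 24 * l`. -/
theorem h7_gcd_shape (p : ℕ) (hp : p.Prime) (hp5 : 5 ≤ p) (l : ℕ) (hl : l.Prime) :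
    ∃ w g' e₀ : ℕ, Nat.gcd (p - 1) 12 = l ^ w * g' ∧ ¬ l ∣ g' ∧
      l ^ w * upMod p l * e₀ = 24 * l := by
  -- `p mod 12 ∈ {1, 5, 7, 11}`
  have h2 : p % 2 = 1 := by
    rcases hp.eq_two_or_odd with h | h
    · omega
    · exact h
  have h3 : p % 3 ≠ 0 := by
    intro h0
    have hdvd : 3 ∣ p := Nat.dvd_of_mod_eq_zero h0
    have := (Nat.prime_dvd_prime_iff_eq Nat.prime_three hp).mp hdvd
    omega
  have hg : Nat.gcd (p - 1) 12 = Nat.gcd ((p - 1) % 12) 12 := by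
    rw [Nat.gcd_comm, Nat.gcd_rec, Nat.gcd_comm]
  have hcases : p % 12 = 1 ∨ p % 12 = 5 ∨ p % 12 = 7 ∨ p % 12 = 11 := by omega
  unfold upMod
  by_cases hl2 : l = 2
  · subst hl2
    rcases hcases with h | h | h | h
    · refine ⟨2, 3, 3, ?_, by decide, ?_⟩
      · rw [hg, show (p - 1) % 12 = 0 by omega]; rfl
      · rw [if_pos rfl, if_pos (by omega)]; norm_num
    · refine ⟨2, 1, 3, ?_, by decide, ?_⟩
      · rw [hg, show (p - 1) % 12 = 4 by omega]; rfl
      · rw [if_pos rfl, if_pos (by omega)]; norm_num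
    · refine ⟨1, 3, 3, ?_, by decide, ?_⟩
      · rw [hg, show (p - 1) % 12 = 6 by omega]; rfl
      · rw [if_pos rfl, if_neg (by omega)]; norm_num
    · refine ⟨1, 1, 3, ?_, by decide, ?_⟩
      · rw [hg, show (p - 1) % 12 = 10 by omega]; rfl
      · rw [if_pos rfl, if_neg (by omega)]; norm_num
  · by_cases hl3 : l = 3
    · subst hl3
      rcases hcases with h | h | h | h
      · refine ⟨1, 4, 8, ?_, by decide, ?_⟩
        · rw [hg, show (p - 1) % 12 = 0 by omega]; rfl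
        · rw [if_neg (by decide), if_pos rfl, if_pos (by omega)]; norm_num
      · refine ⟨0, 4, 8, ?_, by decide, ?_⟩
        · rw [hg, show (p - 1) % 12 = 4 by omega]; rfl
        · rw [if_neg (by decide), if_pos rfl, if_neg (by omega)]; norm_num
      · refine ⟨1, 2, 8, ?_, by decide, ?_⟩
        · rw [hg, show (p - 1) % 12 = 6 by omega]; rfl
        · rw [if_neg (by decide), if_pos rfl, if_pos (by omega)]; norm_num
      · refine ⟨0, 2, 8, ?_, by decide, ?_⟩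
        · rw [hg, show (p - 1) % 12 = 10 by omega]; rfl
        · rw [if_neg (by decide), if_pos rfl, if_neg (by omega)]; norm_num
    · have hl5 : 5 ≤ l := by
        have h2' := hl.two_le
        by_contra hlt
        have h4 : l = 4 := by omega
        subst h4
        exact absurd hl (by decide)
      refine ⟨0, Nat.gcd (p - 1) 12, 24, by simp, ?_, ?_⟩
      · intro hdvd
        have h12 : l ∣ 12 := dvd_trans hdvd (Nat.gcd_dvd_right _ _)
        have hle : l ≤ 12 := Nat.le_of_dvd (by norm_num) h12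
        interval_cases l <;> simp_all (config := {decide := true})
      · rw [if_neg hl2, if_neg hl3]
        ring

/-- **The arithmetic core of the [UP] assembly.** -/
theorem h7_up_arith (p : ℕ) (hp : p.Prime) (hp5 : 5 ≤ p) (M : ℕ)
    (hnd : ¬ M ∣ (p - 1) / Nat.gcd (p - 1) 12) :
    ∃ l : ℕ, l.Prime ∧ ∃ b e : ℕ, ¬ l ∣ b ∧ b * (24 * M) = (p - 1) * (upMod p l * e) := by
  obtain ⟨l, v, hl, hvM, hvn, hvn'⟩ := h7_exists_prime_pow M _ hnd
  obtain ⟨w, g', e₀, hg, hg', he₀⟩ := h7_gcd_shape p hp hp5 l hl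
  obtain ⟨n', hn'⟩ := hvn
  obtain ⟨M₁, hM₁⟩ := hvM
  have hln' : ¬ l ∣ n' := by
    intro h
    obtain ⟨n'', rfl⟩ := h
    apply hvn'
    rw [hn']
    exact ⟨n'', by ring⟩
  have hpn : p - 1 = (p - 1) / Nat.gcd (p - 1) 12 * Nat.gcd (p - 1) 12 :=
    (Nat.div_mul_cancel (Nat.gcd_dvd_left _ _)).symm
  refine ⟨l, hl, n' * g', e₀ * M₁, ?_, ?_⟩
  · intro h
    rcases (Nat.Prime.dvd_mul hl).mp h with h | h
    · exact hln' h
    · exact hg' h
  · rw [hpn, hn', hg, hM₁]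
    have : l ^ (v + 1) = l ^ v * l := pow_succ l v
    rw [this]
    calc n' * g' * (24 * (l ^ v * l * M₁))
        = n' * g' * l ^ v * M₁ * (24 * l) := by ring
      _ = n' * g' * l ^ v * M₁ * (l ^ w * upMod p l * e₀) := by rw [he₀]
      _ = l ^ v * n' * (l ^ w * g') * (upMod p l * (e₀ * M₁)) := by ring

end Fermat.Agent.S16x.Asm.H7
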