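import Mathlib
import Fermat.Agent.S16x.Asm.Defs
import Fermat.Agent.S16x.Asm.H7_UPArith

/-!
# S16 / [UP] assembly : `Asm.StUPasm p`

For `p ≥ 5`: the Eisenstein series `E` (`StEis`) and the non-existence lemmas
`NoG p l (upModulus p l)` (all primes `l`) give the upper bound `StUP p`.

If `f` is a cusp form with integral `q`-expansion `≡ ∑ σ*(k) q^k mod M` and `¬ M ∣ n`, then
`G := 24 / (p - 1) • (E - f)` has constant term `1` and, for the prime `l` and the denominator
`b` of the arithmetic core, `b * a_k(G) ∈ upModulus p l * ℤ` for all `k ≥ 1`.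
-/

set_option autoImplicit false

open ModularCurve CuspForm UpperHalfPlane

noncomputable section

namespace Fermat.Agent.S16x.Asm.H7

open Fermat.Agent.S16x

theorem h7_upModulus_eq (p : ℕ) [Fact p.Prime] (l : ℕ) : Asm.upModulus p l = upMod p l := rfl

/-- `q`-coefficients of `c • (E - f)`. -/
theorem h7_qCoeff_smul_sub (N : ℕ) (c : ℂ) (E : ModularForm (CongruenceSubgroup.Gamma0 N) 2)
    (f : CuspForm (CongruenceSubgroup.Gamma0 N) 2) (k : ℕ) :
    ModularFormClass.qCoeff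
        (⇑(c • (E - CuspForm.toModularFormₗ f) : ModularForm (CongruenceSubgroup.Gamma0 N) 2)) k =
      c * (ModularFormClass.qCoeff E k - ModularFormClass.qCoeff f k) := by
  have hΓ := CongruenceSubgroup.one_mem_strictPeriods_Gamma0 N
  have h1 : (⇑(c • (E - CuspForm.toModularFormₗ f)) : ℍ → ℂ) =
      c • ⇑(E - CuspForm.toModularFormₗ f) := by
    ext z; simp
  have h2 : (⇑(E - CuspForm.toModularFormₗ f) : ℍ → ℂ) = ⇑E - ⇑f := by
    ext z; simp [CuspForm.toModularFormₗ_apply]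
  unfold ModularFormClass.qCoeff
  rw [h1, ModularForm.qExpansion_smul one_pos hΓ c (E - CuspForm.toModularFormₗ f), h2,
    ModularForm.qExpansion_sub one_pos hΓ E f]
  simp

/-- **[UP] assembly.** -/
theorem h7_stUPasm (p : ℕ) [Fact p.Prime] : Asm.StUPasm p := by
  intro hEis hp5 hNoG M hM hcong
  by_contra hnd
  have hp : p.Prime := Fact.out
  have hnd' : ¬ M ∣ (p - 1) / Nat.gcd (p - 1) 12 := hnd
  obtain ⟨l, hl, b, e, hlb, hbe⟩ := h7_up_arith p hp hp5 M hnd'
  obtain ⟨E, hE0, hEk⟩ := hEis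
  obtain ⟨f, -, hfk⟩ := hcong
  have hp1 : ((p : ℂ) - 1) ≠ 0 := by
    have : (1 : ℝ) < p := by exact_mod_cast hp.one_lt
    intro h
    have h' : (p : ℂ) = 1 := by linear_combination h
    have h'' : (p : ℕ) = 1 := by exact_mod_cast h'
    exact hp.one_lt.ne' h''
  have hcast : (((p - 1 : ℕ) : ℕ) : ℂ) = (p : ℂ) - 1 := by
    rw [Nat.cast_sub hp.one_lt.le]; simp
  have hbeC : (b : ℂ) * (24 * (M : ℂ)) = ((p : ℂ) - 1) * ((upMod p l : ℂ) * (e : ℂ)) := by
    rw [← hcast]
    exact_mod_cast hbe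
  refine hNoG l hl ((24 / ((p : ℂ) - 1)) • (E - CuspForm.toModularFormₗ f)) ⟨?_, b, hlb, ?_⟩
  · rw [h7_qCoeff_smul_sub, hE0]
    have hf0 : ModularFormClass.qCoeff f 0 = 0 :=
      CuspFormClass.qExpansion_coeff_zero f one_pos
        (CongruenceSubgroup.one_mem_strictPeriods_Gamma0 p)
    rw [hf0, sub_zero]
    field_simp
  · intro k hk
    obtain ⟨ck, hck⟩ := hfk k hk
    refine ⟨-((e : ℤ) * ck), ?_⟩
    rw [h7_qCoeff_smul_sub, hEk k hk, hck, h7_upModulus_eq]
    have : (b : ℂ) * (24 / ((p : ℂ) - 1) *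
        ((Asm.sigmaStar p k : ℂ) - ((Asm.sigmaStar p k : ℂ) + (M : ℂ) * (ck : ℂ)))) =
        -((b : ℂ) * (24 * (M : ℂ))) * (ck : ℂ) / ((p : ℂ) - 1) := by
      field_simp
      ring
    rw [this, hbeC]
    push_cast
    field_simp

end Fermat.Agent.S16x.Asm.H7
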